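import Fermat.Agent.S24.H324.LocalUnique
import Fermat.Agent.S24.H117.LocalThm
import Fermat.Agent.S24.FFFinite

/-!
# S24 / ALG (helper324) — the fundamental inequality from `LocalData`, Dedekind-free

For `L : LocalData K F C X t` (`K` algebraically closed, `C` of characteristic zero, `F` finite
over `K(t)`):

* `card_fiber_le` : at most `v.ord t` of the embeddings `L.σ x` induce a given place `v`;
* `card_le_sum_ord` : `#X ≤ ∑_{v | t} v.ord t`  (= hypothesis `hsum` of `H117.localThm`);
* `local_count` : the statement `sub_local_count` of helper984's `Alg/Sub.lean`.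
-/

set_option autoImplicit false
set_option linter.style.haveILetI false

noncomputable section

open AlgebraicCurve HahnSeries IntermediateField
open Fermat.Agent.S24.H117

namespace Fermat.Agent.S24.H324

variable {K F : Type*} [Field K] [Field F] [Algebra K F]
variable {C : Type*} [Field C] {X : Type*}
variable {t : F}

/-- Residue field `= K`: first-order expansion of an integral element along a uniformiser. -/
theorem exists_decomp [IsAlgClosed K] [FiniteDimensional K⟮t⟯ F] (v : Place K F)
    (ht : 0 < v.ord t) (π : F) (hπ : v.ord π = 1) (f : F) (hf : 0 ≤ v.ord f) :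
    ∃ (c : K) (f₁ : F), 0 ≤ v.ord f₁ ∧ f = algebraMap K F c + π * f₁ := by
  have hπ0 : π ≠ 0 := ne_zero_of_ord_ne_zero v (by rw [hπ]; norm_num)
  have htr : Transcendental K t := by
    apply FF.transcendental_of_not_mem_range
    rintro ⟨a, rfl⟩
    rw [H117.ord_algebraMap] at ht
    exact lt_irrefl _ ht
  obtain ⟨a, ha⟩ := FF.exists_const_sub_mem_nonunits v htr (H117.mem_of_ord_nonneg v hf)
  refine ⟨a, (f - algebraMap K F a) / π, ?_, ?_⟩
  · rcases eq_or_ne (f - algebraMap K F a) 0 with h0 | h0
    · rw [h0, zero_div, v.ord_zero]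
    · have hpos := (FF.ord_pos_iff_mem_nonunits v h0).mpr ha
      rw [ord_div v h0 hπ0, hπ]
      omega
  · rw [mul_div_cancel₀ _ hπ0]; ring

variable (L : LocalData K F C X t)

/-- Two points of `X` inducing the same place give the hypotheses `SamePlace`. -/
theorem samePlace_of_placeOf_eq {x y : X} (hxy : placeOf L y = placeOf L x) :
    SamePlace (placeOf L x) (L.σ x) (L.σ y) (mult L x) where
  g_pos := mult_pos L x
  ordσ := order_eq L x
  ordτ := by
    have hm : mult L y = mult L x := by
      have h1 := mult_mul_ord_t L x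
      have h2 := mult_mul_ord_t L y
      rw [hxy] at h2
      have hpos := ord_t_pos L x
      have : (mult L y : ℤ) = mult L x :=
        mul_right_cancel₀ hpos.ne' (h2.trans h1.symm)
      exact_mod_cast this
    intro f
    rw [order_eq L y f, hxy, hm]
  const c := by rw [L.σ_const, L.σ_const]

variable [IsAlgClosed K] [CharZero C] [FiniteDimensional K⟮t⟯ F]

/-- **Local bound**: at most `v.ord t` of the embeddings induce the place `v`. -/
theorem card_fiber_le [Fintype X] [DecidableEq (Place K F)] (v : Place K F)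
    (hv : 0 ≤ v.ord t) :
    ((Finset.univ.filter (fun x => placeOf L x = v)).card : ℤ) ≤ v.ord t := by
  classical
  rcases (Finset.univ.filter (fun x => placeOf L x = v)).eq_empty_or_nonempty with hemp | hne
  · rw [hemp]; simpa using hv
  obtain ⟨x₀, hx₀⟩ := hne
  have hx₀v : placeOf L x₀ = v := (Finset.mem_filter.mp hx₀).2
  subst hx₀v
  have ht : 0 < (placeOf L x₀).ord t := ord_t_pos L x₀
  obtain ⟨π, hπ0, hπ⟩ := exists_ord_eq_one (placeOf L x₀)
  obtain ⟨e, he⟩ : ∃ e : ℕ, (e : ℤ) = (placeOf L x₀).ord t :=
    ⟨((placeOf L x₀).ord t).toNat, Int.toNat_of_nonneg ht.le⟩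
  have he0 : 0 < e := by
    have : (0 : ℤ) < e := by rw [he]; exact ht
    exact_mod_cast this
  have hres := exists_decomp (placeOf L x₀) ht π hπ
  set a : C := (L.σ x₀ π).leadingCoeff ^ e with ha
  have hmaps : Set.MapsTo (fun x => (L.σ x π).leadingCoeff)
      (↑(Finset.univ.filter (fun x => placeOf L x = placeOf L x₀)))
      (↑(Polynomial.nthRootsFinset e a) : Set C) := by
    intro x hx
    have hxv : placeOf L x = placeOf L x₀ := (Finset.mem_filter.mp hx).2
    have hS := samePlace_of_placeOf_eq L hxv
    have := hS.leadingCoeff_pow_eq π hπ hres t ht (L.σ_t_eq x₀ x) e he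
    simp only [Finset.mem_coe]
    rw [Polynomial.mem_nthRootsFinset he0]
    exact this.symm
  have hinj : Set.InjOn (fun x => (L.σ x π).leadingCoeff)
      (↑(Finset.univ.filter (fun x => placeOf L x = placeOf L x₀))) := by
    intro x hx y hy hxy
    have hxv : placeOf L x = placeOf L x₀ := (Finset.mem_filter.mp hx).2
    have hyv : placeOf L y = placeOf L x₀ := (Finset.mem_filter.mp hy).2
    have hyx : placeOf L y = placeOf L x := hyv.trans hxv.symm
    have hS := samePlace_of_placeOf_eq L hyx
    have hπx : (placeOf L x).ord π = 1 := by rw [hxv]; exact hπ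
    have htx : 0 < (placeOf L x).ord t := ord_t_pos L x
    have hresx := exists_decomp (placeOf L x) htx π hπx
    exact L.σ_inj (hS.eq_of_leadingCoeff_eq π hπx hresx t htx (L.σ_t_eq x y) hxy)
  have h1 := Finset.card_le_card_of_injOn _ hmaps hinj
  have h2 : (Polynomial.nthRootsFinset e a).card ≤ e := by
    unfold Polynomial.nthRootsFinset
    exact (Multiset.toFinset_card_le _).trans (Polynomial.card_nthRoots e a)
  rw [← he]
  exact_mod_cast h1.trans h2

variable [Finite X]

include L in
/-- **Fundamental inequality**, Dedekind-free. -/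
theorem card_le_sum_ord (s : Finset (Place K F)) (hs : ∀ v, v ∈ s ↔ 0 < v.ord t) :
    (Nat.card X : ℤ) ≤ ∑ v ∈ s, v.ord t := by
  classical
  haveI : Fintype X := Fintype.ofFinite X
  have hmaps : Set.MapsTo (placeOf L) (↑(Finset.univ : Finset X)) (↑s : Set (Place K F)) := by
    intro x _
    exact Finset.mem_coe.mpr ((hs _).mpr (ord_t_pos L x))
  have hcard := Finset.card_eq_sum_card_fiberwise hmaps
  rw [Nat.card_eq_fintype_card, ← Finset.card_univ, hcard, Nat.cast_sum]
  refine Finset.sum_le_sum fun v hv => ?_
  exact card_fiber_le L v ((hs v).mp hv).le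

/-- **LT** (statement `sub_local_count` of helper984's `Alg/Sub.lean`). -/
theorem local_count [CharZero K]
    (hrank : Module.finrank ↥(IntermediateField.adjoin K {t}) F = Nat.card X) :
    {v : Place K F | 0 < v.ord t}.Finite ∧
      Nat.card ↥{v : Place K F | 0 < v.ord t} = numOrbits L.perm ∧
      ∑ᶠ v ∈ {v : Place K F | 0 < v.ord t}, v.ord t = (Nat.card X : ℤ) := by
  classical
  have hfin : {v : Place K F | 0 < v.ord t}.Finite :=
    finite_places_over L K⟮t⟯ le_rfl hrank
  set s := hfin.toFinset with hs
  have hmem : ∀ v, v ∈ s ↔ 0 < v.ord t := fun v => by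
    rw [hs, Set.Finite.mem_toFinset]; rfl
  obtain ⟨h1, -, h3⟩ := localThm L K⟮t⟯ le_rfl hrank s hmem (card_le_sum_ord L s hmem)
  refine ⟨hfin, ?_, ?_⟩
  · rw [← h1, Nat.card_eq_card_finite_toFinset hfin]
  · rw [finsum_mem_eq_finite_toFinset_sum _ hfin]
    exact h3

end Fermat.Agent.S24.H324
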