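import Fermat.Agent.S24.H324.NormSum
import Fermat.Agent.S24.H324.RatOrd
import Fermat.Agent.S24.Alg.Basic

/-!
# S24 / ALG (helper324) — FF3 from `LocalData`: a principal divisor has degree zero

Dedekind-free proof of `deg (div f) = 0` for `F / K(j)` finite, given a full system of local
embeddings (`LocalData`) at every point `a : K` of the `j`-line and at `∞`:

`∑_{v | a} v.ord f = ord_a (N f)` (norm formula, `sum_ord_eq_of_norm`) and
`∑_a ord_a (N f) = 0` on `ℙ¹` (`exists_pointOrd`).
-/

set_option autoImplicit false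
set_option linter.style.haveILetI false

noncomputable section

open AlgebraicCurve HahnSeries IntermediateField
open Fermat.Agent.S24.H117

namespace Fermat.Agent.S24.H324

variable {K F : Type*} [Field K] [Field F] [Algebra K F]
variable {C : Type*} [Field C] {X : Type*}

/-- The norm to an intermediate field only depends on the field as a subset. -/
theorem norm_eq_of_eq {E₁ E₂ : IntermediateField K F} (h : E₁ = E₂) (f : F) :
    algebraMap ↥E₁ F (Algebra.norm ↥E₁ f) = algebraMap ↥E₂ F (Algebra.norm ↥E₂ f) := by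
  subst h
  rfl

variable [IsAlgClosed K] [CharZero K] [CharZero C] [Finite X]

/-- **FF3 from `LocalData`.** -/
theorem degree_principal_of_localData (j : F)
    [FiniteDimensional ↥(IntermediateField.adjoin K {j}) F]
    (hrank : Module.finrank ↥(IntermediateField.adjoin K {j}) F = Nat.card X)
    (dataFin : ∀ a : K, LocalData K F C X (j - algebraMap K F a))
    (dataInf : LocalData K F C X j⁻¹)
    (f : F) (hf : f ≠ 0) (D : Divisor K F) (hD : ∀ v : Place K F, D v = v.ord f) :
    Divisor.degree D = 0 := by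
  classical
  -- finiteness over `K(j - a)` and `K(j⁻¹)`
  have hfinA : ∀ a : K, FiniteDimensional ↥K⟮j - algebraMap K F a⟯ F ∧
      Module.finrank ↥K⟮j - algebraMap K F a⟯ F = Module.finrank ↥K⟮j⟯ F := fun a =>
    finiteDimensional_and_finrank_of_eq (adjoin_sub_algebraMap K j a)
  have hfinI : FiniteDimensional ↥K⟮j⁻¹⟯ F ∧
      Module.finrank ↥K⟮j⁻¹⟯ F = Module.finrank ↥K⟮j⟯ F :=
    finiteDimensional_and_finrank_of_eq (adjoin_inv K j)
  haveI := hfinI.1
  have hrankI : Module.finrank ↥K⟮j⁻¹⟯ F = Nat.card X := hfinI.2.trans hrank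
  have hrankA : ∀ a : K, Module.finrank ↥K⟮j - algebraMap K F a⟯ F = Nat.card X := fun a =>
    (hfinA a).2.trans hrank
  -- `X` is nonempty, `j` is transcendental
  have hXne : Nonempty X := by
    have h0 : 0 < Nat.card X := hrank ▸ Module.finrank_pos
    exact (Nat.card_pos_iff.mp h0).1
  obtain ⟨x₀⟩ := hXne
  have hjtr : Transcendental K j := by
    apply FF.transcendental_of_not_mem_range
    rintro ⟨c, hc⟩
    obtain ⟨v₀, h1⟩ : ∃ v : Place K F, 0 < v.ord j⁻¹ := ⟨_, ord_t_pos dataInf x₀⟩
    have h2 : j⁻¹ = algebraMap K F c⁻¹ := by rw [map_inv₀, hc]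
    rw [h2, H117.ord_algebraMap] at h1
    exact lt_irrefl _ h1
  -- the norm of `f`
  set r : F := algebraMap ↥K⟮j⟯ F (Algebra.norm ↥K⟮j⟯ f) with hr
  have hrmem : r ∈ K⟮j⟯ := (Algebra.norm ↥K⟮j⟯ f).2
  have hr0 : r ≠ 0 := by
    rw [hr, Ne, map_eq_zero_iff _ (algebraMap ↥K⟮j⟯ F).injective, Algebra.norm_eq_zero_iff]
    exact hf
  obtain ⟨ν, νinf, T, hνT, hνsum, hνfin, hνinf⟩ := exists_pointOrd j r hrmem hr0
  -- the places over each point
  have hfinsetI : {v : Place K F | 0 < v.ord j⁻¹}.Finite :=
    finite_places_over dataInf K⟮j⁻¹⟯ le_rfl hrankI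
  have hfinsetA : ∀ a : K, {v : Place K F | 0 < v.ord (j - algebraMap K F a)}.Finite := fun a =>
    haveI := (hfinA a).1
    finite_places_over (dataFin a) K⟮j - algebraMap K F a⟯ le_rfl (hrankA a)
  have hmemI : ∀ v, v ∈ hfinsetI.toFinset ↔ 0 < v.ord j⁻¹ := fun v => by
    rw [Set.Finite.mem_toFinset]; rfl
  have hmemA : ∀ a v, v ∈ (hfinsetA a).toFinset ↔ 0 < v.ord (j - algebraMap K F a) :=
    fun a v => by rw [Set.Finite.mem_toFinset]; rfl
  -- the norm formula at each point
  have hsumI : ∑ v ∈ hfinsetI.toFinset, v.ord f = νinf := by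
    refine sum_ord_eq_of_norm dataInf hrankI _ hmemI f hf νinf fun v hv => ?_
    rw [norm_eq_of_eq (adjoin_inv K j) f]
    exact hνinf v hv
  have hsumA : ∀ a : K, ∑ v ∈ (hfinsetA a).toFinset, v.ord f = ν a := fun a => by
    haveI := (hfinA a).1
    refine sum_ord_eq_of_norm (dataFin a) (hrankA a) _ (hmemA a) f hf (ν a) fun v hv => ?_
    rw [norm_eq_of_eq (adjoin_sub_algebraMap K j a) f]
    exact hνfin v a hv
  -- the degree as a sum of orders
  have hdeg : Divisor.degree D = ∑ v ∈ D.support, v.ord f := by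
    rw [Divisor.degree, Finsupp.liftAddHom_apply, Finsupp.sum]
    refine Finset.sum_congr rfl fun v _ => ?_
    rw [AddMonoidHom.coe_mulRight, hD v, FF.deg_eq_one v hjtr]
    simp
  rw [hdeg]
  -- orders vanish outside the support
  have hzero : ∀ v : Place K F, v ∉ D.support → v.ord f = 0 := fun v hv => by
    rw [← hD v]
    exact Finsupp.notMem_support_iff.mp hv
  -- split the support into poles of `j` and the rest
  rw [← Finset.sum_filter_add_sum_filter_not D.support (fun v : Place K F => v.ord j < 0)]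
  have hpole : ∑ v ∈ D.support.filter (fun v : Place K F => v.ord j < 0), v.ord f = νinf := by
    rw [← hsumI]
    refine Finset.sum_subset ?_ ?_
    · intro v hv
      rw [hmemI, v.ord_inv]
      have := (Finset.mem_filter.mp hv).2
      omega
    · intro v hv hv'
      apply hzero
      intro hsupp
      apply hv'
      rw [hmemI, v.ord_inv] at hv
      exact Finset.mem_filter.mpr ⟨hsupp, by omega⟩
  -- the finite point under a place
  haveI : Algebra.IsAlgebraic ↥K⟮j⟯ F := Algebra.IsAlgebraic.of_finite _ _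
  have hpt : ∀ v : Place K F, ¬ v.ord j < 0 → ∃ a : K, 0 < v.ord (j - algebraMap K F a) :=
    fun v hv => FF.exists_ord_sub_pos v j (not_lt.mp hv)
  let pt : Place K F → K := fun v =>
    if h : v.ord j < 0 then 0 else (hpt v h).choose
  have hpt_spec : ∀ v : Place K F, ¬ v.ord j < 0 → 0 < v.ord (j - algebraMap K F (pt v)) := by
    intro v hv
    simp only [pt, dif_neg hv]
    exact (hpt v hv).choose_spec
  have hpt_eq : ∀ (v : Place K F) (a : K), 0 < v.ord (j - algebraMap K F a) →
      ¬ v.ord j < 0 ∧ pt v = a := by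
    intro v a ha
    have hnot : ¬ v.ord j < 0 := by
      intro hj
      exact not_pos_ord_sub_of_pos_ord_inv v j a (by rw [v.ord_inv]; omega) ha
    exact ⟨hnot, FF.ord_sub_pos_unique v j (hpt_spec v hnot) ha⟩
  set Sfin := D.support.filter (fun v : Place K F => ¬ v.ord j < 0) with hSfin
  set U := T ∪ Sfin.image pt with hU
  have hfinite : ∑ v ∈ Sfin, v.ord f = ∑ a ∈ T, ν a := by
    have hmaps : ∀ v ∈ Sfin, pt v ∈ U := fun v hv =>
      Finset.mem_union_right _ (Finset.mem_image_of_mem pt hv)
    rw [← Finset.sum_fiberwise_of_maps_to hmaps]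
    have hfib : ∀ a ∈ U, ∑ v ∈ Sfin with pt v = a, v.ord f = ν a := by
      intro a _
      rw [← hsumA a]
      refine Finset.sum_subset ?_ ?_
      · intro v hv
        obtain ⟨hv1, hv2⟩ := Finset.mem_filter.mp hv
        rw [hmemA, ← hv2]
        exact hpt_spec v (Finset.mem_filter.mp hv1).2
      · intro v hv hv'
        apply hzero
        intro hsupp
        apply hv'
        rw [hmemA] at hv
        obtain ⟨h1, h2⟩ := hpt_eq v a hv
        exact Finset.mem_filter.mpr ⟨Finset.mem_filter.mpr ⟨hsupp, h1⟩, h2⟩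
    rw [Finset.sum_congr rfl hfib]
    symm
    refine Finset.sum_subset Finset.subset_union_left ?_
    intro a _ haT
    exact hνT a haT
  rw [hpole, hfinite]
  exact hνsum

end Fermat.Agent.S24.H324
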