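import Mathlib.RingTheory.LaurentSeries
import Mathlib.Algebra.Ring.GeomSum
import Mathlib.Algebra.CharZero.Defs

/-!
# S24 / ALG (helper324) — Laurent series: "vanishing below `N`" calculus

`VanishBelow N A` says that all coefficients of `A` of index `< N` vanish.  This is a
junk-free replacement of `N ≤ A.order` (which misbehaves for `A = 0`).
-/

set_option autoImplicit false

namespace Fermat.Agent.S24.H324

open HahnSeries

variable {C : Type*} [Field C]

/-- All coefficients of index `< N` vanish. -/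
def VanishBelow (N : ℤ) (A : LaurentSeries C) : Prop := ∀ i : ℤ, i < N → A.coeff i = 0

theorem vanishBelow_zero (N : ℤ) : VanishBelow N (0 : LaurentSeries C) := fun _ _ => rfl

theorem VanishBelow.mono {N M : ℤ} {A : LaurentSeries C} (h : VanishBelow N A) (hMN : M ≤ N) :
    VanishBelow M A := fun i hi => h i (lt_of_lt_of_le hi hMN)

theorem VanishBelow.add {N : ℤ} {A B : LaurentSeries C} (hA : VanishBelow N A)
    (hB : VanishBelow N B) : VanishBelow N (A + B) := fun i hi => by
  rw [coeff_add, hA i hi, hB i hi, add_zero]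

theorem VanishBelow.neg {N : ℤ} {A : LaurentSeries C} (hA : VanishBelow N A) :
    VanishBelow N (-A) := fun i hi => by
  rw [coeff_neg, hA i hi, neg_zero]

theorem VanishBelow.sub {N : ℤ} {A B : LaurentSeries C} (hA : VanishBelow N A)
    (hB : VanishBelow N B) : VanishBelow N (A - B) := fun i hi => by
  rw [coeff_sub, hA i hi, hB i hi, sub_zero]

theorem vanishBelow_order (A : LaurentSeries C) : VanishBelow A.order A :=
  fun _ hi => coeff_eq_zero_of_lt_order hi

theorem vanishBelow_of_le_order {N : ℤ} {A : LaurentSeries C} (h : N ≤ A.order) :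
    VanishBelow N A := (vanishBelow_order A).mono h

theorem VanishBelow.le_order {N : ℤ} {A : LaurentSeries C} (h : VanishBelow N A) (hA : A ≠ 0) :
    N ≤ A.order := by
  by_contra hlt
  exact hA (coeff_order_eq_zero.mp (h _ (lt_of_not_ge hlt)))

theorem vanishBelow_iff {N : ℤ} {A : LaurentSeries C} (hA : A ≠ 0) :
    VanishBelow N A ↔ N ≤ A.order :=
  ⟨fun h => h.le_order hA, vanishBelow_of_le_order⟩

theorem VanishBelow.mul {N M : ℤ} {A B : LaurentSeries C} (hA : VanishBelow N A)
    (hB : VanishBelow M B) : VanishBelow (N + M) (A * B) := by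
  rcases eq_or_ne A 0 with rfl | hA0
  · rw [zero_mul]; exact vanishBelow_zero _
  rcases eq_or_ne B 0 with rfl | hB0
  · rw [mul_zero]; exact vanishBelow_zero _
  apply vanishBelow_of_le_order
  rw [order_mul hA0 hB0]
  exact add_le_add (hA.le_order hA0) (hB.le_order hB0)

/-- Cancellation of a nonzero factor. -/
theorem VanishBelow.of_mul_right {N : ℤ} {A B : LaurentSeries C} (hB : B ≠ 0)
    (h : VanishBelow N (A * B)) : VanishBelow (N - B.order) A := by
  rcases eq_or_ne A 0 with rfl | hA0
  · exact vanishBelow_zero _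
  apply vanishBelow_of_le_order
  have := h.le_order (mul_ne_zero hA0 hB)
  rw [order_mul hA0 hB] at this
  omega

theorem eq_zero_of_forall_vanishBelow {A : LaurentSeries C}
    (h : ∀ N : ℕ, VanishBelow (N : ℤ) A) : A = 0 := by
  ext i
  have := h (i + 1).toNat i (by omega)
  simpa using this

theorem vanishBelow_sum {ι : Type*} (s : Finset ι) (N : ℤ) (A : ι → LaurentSeries C)
    (h : ∀ i ∈ s, VanishBelow N (A i)) : VanishBelow N (∑ i ∈ s, A i) := by
  classical
  induction s using Finset.induction_on with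
  | empty => simpa using vanishBelow_zero N
  | insert a s ha ih =>
    rw [Finset.sum_insert ha]
    exact (h a (Finset.mem_insert_self a s)).add
      (ih fun i hi => h i (Finset.mem_insert_of_mem hi))

theorem coeff_sum' {ι : Type*} (s : Finset ι) (A : ι → LaurentSeries C) (n : ℤ) :
    (∑ i ∈ s, A i).coeff n = ∑ i ∈ s, (A i).coeff n := by
  classical
  induction s using Finset.induction_on with
  | empty => simp
  | insert a s ha ih => rw [Finset.sum_insert ha, Finset.sum_insert ha, coeff_add, ih]

theorem leadingCoeff_pow' (A : LaurentSeries C) (n : ℕ) :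
    (A ^ n).leadingCoeff = A.leadingCoeff ^ n := by
  induction n with
  | zero => simp
  | succ n ih => rw [pow_succ, pow_succ, leadingCoeff_mul, ih]

theorem order_pow' (A : LaurentSeries C) (n : ℕ) : (A ^ n).order = n * A.order := by
  rw [order_pow, nsmul_eq_mul]

/-- The "geometric sum" `∑_{l<e} P^l Q^(e-1-l)` of two series with the same order `g` and the
same leading coefficient is nonzero of order `g (e - 1)` (characteristic zero). -/
theorem geomSum_ne_zero_and_order [CharZero C] {P Q : LaurentSeries C} {g : ℤ}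
    (hP0 : P ≠ 0) (hQ0 : Q ≠ 0) (hP : P.order = g) (hQ : Q.order = g)
    (hlc : P.leadingCoeff = Q.leadingCoeff) (e : ℕ) (he : 0 < e) :
    (∑ l ∈ Finset.range e, P ^ l * Q ^ (e - 1 - l)) ≠ 0 ∧
      (∑ l ∈ Finset.range e, P ^ l * Q ^ (e - 1 - l)).order = g * ((e : ℤ) - 1) := by
  set S := ∑ l ∈ Finset.range e, P ^ l * Q ^ (e - 1 - l) with hS
  have hterm_ne : ∀ l, P ^ l * Q ^ (e - 1 - l) ≠ 0 := fun l =>
    mul_ne_zero (pow_ne_zero _ hP0) (pow_ne_zero _ hQ0)
  have hterm_ord : ∀ l ∈ Finset.range e, (P ^ l * Q ^ (e - 1 - l)).order = g * ((e : ℤ) - 1) := by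
    intro l hl
    have hl' : l < e := Finset.mem_range.mp hl
    rw [order_mul (pow_ne_zero _ hP0) (pow_ne_zero _ hQ0), order_pow', order_pow', hP, hQ]
    have : ((e - 1 - l : ℕ) : ℤ) = (e : ℤ) - 1 - l := by omega
    rw [this]; ring
  have hterm_lc : ∀ l ∈ Finset.range e,
      (P ^ l * Q ^ (e - 1 - l)).coeff (g * ((e : ℤ) - 1)) = P.leadingCoeff ^ (e - 1) := by
    intro l hl
    have hl' : l < e := Finset.mem_range.mp hl
    rw [← hterm_ord l hl, ← leadingCoeff_eq, leadingCoeff_mul, leadingCoeff_pow',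
      leadingCoeff_pow', ← hlc, ← pow_add]
    congr 1
    omega
  have hcoeff : S.coeff (g * ((e : ℤ) - 1)) = (e : C) * P.leadingCoeff ^ (e - 1) := by
    rw [hS, coeff_sum', Finset.sum_congr rfl hterm_lc, Finset.sum_const, Finset.card_range,
      nsmul_eq_mul]
  have hne : S.coeff (g * ((e : ℤ) - 1)) ≠ 0 := by
    rw [hcoeff]
    refine mul_ne_zero (Nat.cast_ne_zero.mpr he.ne') (pow_ne_zero _ ?_)
    exact leadingCoeff_ne_zero.mpr hP0
  have hS0 : S ≠ 0 := by
    intro h
    rw [h] at hne
    exact hne rfl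
  refine ⟨hS0, le_antisymm (order_le_of_coeff_ne_zero hne) ?_⟩
  have hV : VanishBelow (g * ((e : ℤ) - 1)) S :=
    vanishBelow_sum _ _ _ fun l hl => vanishBelow_of_le_order (hterm_ord l hl).ge
  exact hV.le_order hS0

end Fermat.Agent.S24.H324
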