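import Fermat.Agent.S24.H324.Laurent
import Fermat.Agent.S24.H117.PlaceBasic

/-!
# S24 / ALG (helper324) — local uniqueness of embeddings

Two embeddings `σ τ : F → C((z))` inducing the same place `v` (with the same multiplicity `g`),
agreeing on the constants and on one element `t` with `v(t) > 0`, and such that the leading
coefficients of `σ π` and `τ π` agree for one uniformiser `π`, are equal.

No completeness, no Dedekind domains: successive approximation inside `F`.
-/

set_option autoImplicit false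

namespace Fermat.Agent.S24.H324

open AlgebraicCurve HahnSeries
open Fermat.Agent.S24.H117

variable {K F : Type*} [Field K] [Field F] [Algebra K F]
variable {C : Type*} [Field C]

section Abstract

variable (v : Place K F) (σ τ : F →+* LaurentSeries C) (g : ℕ)

/-- Hypotheses shared by the lemmas of this section. -/
structure SamePlace : Prop where
  g_pos : 0 < g
  ordσ : ∀ f : F, (σ f).order = (g : ℤ) * v.ord f
  ordτ : ∀ f : F, (τ f).order = (g : ℤ) * v.ord f
  const : ∀ c : K, σ (algebraMap K F c) = τ (algebraMap K F c)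

variable {v σ τ g}

theorem SamePlace.vanishσ (h : SamePlace v σ τ g) {f : F} {n : ℤ} (hf : n ≤ v.ord f) :
    VanishBelow ((g : ℤ) * n) (σ f) := by
  apply vanishBelow_of_le_order
  rw [h.ordσ]
  exact mul_le_mul_of_nonneg_left hf (by positivity)

theorem SamePlace.vanishτ (h : SamePlace v σ τ g) {f : F} {n : ℤ} (hf : n ≤ v.ord f) :
    VanishBelow ((g : ℤ) * n) (τ f) := by
  apply vanishBelow_of_le_order
  rw [h.ordτ]
  exact mul_le_mul_of_nonneg_left hf (by positivity)

/-- **Local uniqueness.** -/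
theorem SamePlace.eq_of_leadingCoeff_eq [CharZero C] (h : SamePlace v σ τ g)
    (π : F) (hπ : v.ord π = 1)
    (hres : ∀ f : F, 0 ≤ v.ord f →
      ∃ (c : K) (f₁ : F), 0 ≤ v.ord f₁ ∧ f = algebraMap K F c + π * f₁)
    (t : F) (ht : 0 < v.ord t) (hst : σ t = τ t)
    (hlc : (σ π).leadingCoeff = (τ π).leadingCoeff) : σ = τ := by
  have hg : (0 : ℤ) < g := by exact_mod_cast h.g_pos
  have hπ0 : π ≠ 0 := ne_zero_of_ord_ne_zero v (by rw [hπ]; norm_num)
  have ht0 : t ≠ 0 := ne_zero_of_ord_ne_zero v ht.ne'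
  set P := σ π with hP
  set Q := τ π with hQ
  have hP0 : P ≠ 0 := (map_ne_zero σ).mpr hπ0
  have hQ0 : Q ≠ 0 := (map_ne_zero τ).mpr hπ0
  have hPord : P.order = g := by rw [hP, h.ordσ, hπ, mul_one]
  have hQord : Q.order = g := by rw [hQ, h.ordτ, hπ, mul_one]
  -- ramification index
  obtain ⟨e, he⟩ : ∃ e : ℕ, (e : ℤ) = v.ord t := ⟨(v.ord t).toNat, Int.toNat_of_nonneg ht.le⟩
  have he0 : 0 < e := by
    have : (0 : ℤ) < e := by rw [he]; exact ht
    exact_mod_cast this
  -- the unit `u = t / π ^ e`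
  set u := t / π ^ e with hu
  have hu0 : u ≠ 0 := div_ne_zero ht0 (pow_ne_zero _ hπ0)
  have hut : t = u * π ^ e := by rw [hu, div_mul_cancel₀ _ (pow_ne_zero _ hπ0)]
  have huord : v.ord u = 0 := by
    rw [hu, ord_div v ht0 (pow_ne_zero _ hπ0), ord_pow, hπ, he]; ring
  have hσu0 : σ u ≠ 0 := (map_ne_zero σ).mpr hu0
  have hσuord : (σ u).order = 0 := by rw [h.ordσ, huord, mul_zero]
  -- the geometric sum
  obtain ⟨hS0, hSord⟩ := geomSum_ne_zero_and_order hP0 hQ0 hPord hQord hlc e he0
  have hgeom := geom_sum₂_mul P Q e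
  -- main induction
  have key : ∀ N : ℕ, ∀ f : F, 0 ≤ v.ord f → VanishBelow (N : ℤ) (σ f - τ f) := by
    intro N
    induction N with
    | zero =>
      intro f hf
      have h1 := h.vanishσ hf
      have h2 := h.vanishτ hf
      rw [mul_zero] at h1 h2
      simpa using h1.sub h2
    | succ N ih =>
      intro f hf
      -- the difference `P - Q`
      have hPQ : VanishBelow ((N : ℤ) + g) (P - Q) := by
        have hu1 := ih u huord.ge
        have hrel : (P ^ e - Q ^ e) * σ u = -(Q ^ e * (σ u - τ u)) := by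
          have h1 : σ t = σ u * P ^ e := by rw [hut, map_mul, map_pow]
          have h2 : τ t = τ u * Q ^ e := by rw [hut, map_mul, map_pow]
          have h3 : σ u * P ^ e = τ u * Q ^ e := by rw [← h1, ← h2, hst]
          linear_combination h3
        have hQe : VanishBelow ((g : ℤ) * e) (Q ^ e) := by
          apply vanishBelow_of_le_order
          rw [order_pow', hQord]
          exact le_of_eq (mul_comm _ _)
        have h4 : VanishBelow ((g : ℤ) * e + N) ((P ^ e - Q ^ e) * σ u) := by
          rw [hrel]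
          exact (hQe.mul hu1).neg
        have h5 := h4.of_mul_right hσu0
        rw [hσuord, sub_zero, ← hgeom] at h5
        have h6 : VanishBelow ((g : ℤ) * e + N)
            ((P - Q) * ∑ l ∈ Finset.range e, P ^ l * Q ^ (e - 1 - l)) := by
          rw [mul_comm (P - Q)]; exact h5
        have h7 := h6.of_mul_right hS0
        rw [hSord] at h7
        refine h7.mono ?_
        have : (g : ℤ) * e + N - g * ((e : ℤ) - 1) = N + g := by ring
        rw [this]
      obtain ⟨c, f₁, hf₁, rfl⟩ := hres f hf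
      have hdecomp : σ (algebraMap K F c + π * f₁) - τ (algebraMap K F c + π * f₁)
          = P * (σ f₁ - τ f₁) + (P - Q) * τ f₁ := by
        rw [map_add, map_add, map_mul, map_mul, h.const c]
        ring
      rw [hdecomp]
      have hA : VanishBelow ((g : ℤ) + N) (P * (σ f₁ - τ f₁)) :=
        (vanishBelow_of_le_order hPord.ge).mul (ih f₁ hf₁)
      have hB : VanishBelow ((N : ℤ) + g + 0) ((P - Q) * τ f₁) := by
        refine hPQ.mul ?_
        have := h.vanishτ hf₁
        rwa [mul_zero] at this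
      have hA' : VanishBelow ((N + 1 : ℕ) : ℤ) (P * (σ f₁ - τ f₁)) :=
        hA.mono (by push_cast; omega)
      have hB' : VanishBelow ((N + 1 : ℕ) : ℤ) ((P - Q) * τ f₁) :=
        hB.mono (by push_cast; omega)
      exact hA'.add hB'
  have hint : ∀ f : F, 0 ≤ v.ord f → σ f = τ f := fun f hf =>
    sub_eq_zero.mp (eq_zero_of_forall_vanishBelow fun N => key N f hf)
  refine RingHom.ext fun f => ?_
  rcases le_or_gt 0 (v.ord f) with hf | hf
  · exact hint f hf
  · have hinv : σ f⁻¹ = τ f⁻¹ := hint f⁻¹ (by rw [v.ord_inv]; omega)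
    rw [map_inv₀, map_inv₀] at hinv
    exact inv_injective hinv

/-- The `e`-th power of the leading coefficient of `σ π` is determined by `σ t`. -/
theorem SamePlace.leadingCoeff_pow_eq (h : SamePlace v σ τ g)
    (π : F) (hπ : v.ord π = 1)
    (hres : ∀ f : F, 0 ≤ v.ord f →
      ∃ (c : K) (f₁ : F), 0 ≤ v.ord f₁ ∧ f = algebraMap K F c + π * f₁)
    (t : F) (ht : 0 < v.ord t) (hst : σ t = τ t) (e : ℕ) (he : (e : ℤ) = v.ord t) :
    (σ π).leadingCoeff ^ e = (τ π).leadingCoeff ^ e := by
  have hg : (0 : ℤ) < g := by exact_mod_cast h.g_pos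
  have hπ0 : π ≠ 0 := ne_zero_of_ord_ne_zero v (by rw [hπ]; norm_num)
  have ht0 : t ≠ 0 := ne_zero_of_ord_ne_zero v ht.ne'
  set u := t / π ^ e with hu
  have hu0 : u ≠ 0 := div_ne_zero ht0 (pow_ne_zero _ hπ0)
  have hut : t = u * π ^ e := by rw [hu, div_mul_cancel₀ _ (pow_ne_zero _ hπ0)]
  have huord : v.ord u = 0 := by
    rw [hu, ord_div v ht0 (pow_ne_zero _ hπ0), ord_pow, hπ, he]; ring
  obtain ⟨c, u₁, hu₁, hcu⟩ := hres u huord.ge
  -- leading coefficient of the image of a unit `c + π u₁`
  have hlead : ∀ ρ : F →+* LaurentSeries C, (∀ f : F, (ρ f).order = (g : ℤ) * v.ord f) →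
      (ρ u).leadingCoeff = (ρ (algebraMap K F c)).coeff 0 := by
    intro ρ hρ
    have hord : (ρ u).order = 0 := by rw [hρ, huord, mul_zero]
    rw [leadingCoeff_eq, hord, hcu, map_add, coeff_add]
    have : (ρ (π * u₁)).coeff 0 = 0 := by
      rcases eq_or_ne u₁ 0 with rfl | hu₁0
      · simp
      apply coeff_eq_zero_of_lt_order
      rw [hρ, v.ord_mul hπ0 hu₁0, hπ]
      nlinarith
    rw [this, add_zero]
  have h1 : σ t = σ u * (σ π) ^ e := by rw [hut, map_mul, map_pow]
  have h2 : τ t = τ u * (τ π) ^ e := by rw [hut, map_mul, map_pow]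
  have h3 := congrArg HahnSeries.leadingCoeff hst
  rw [h1, h2, leadingCoeff_mul, leadingCoeff_mul, leadingCoeff_pow', leadingCoeff_pow',
    hlead σ h.ordσ, hlead τ h.ordτ, h.const c] at h3
  have hne : (τ (algebraMap K F c)).coeff 0 ≠ 0 := by
    rw [← hlead τ h.ordτ]
    exact leadingCoeff_ne_zero.mpr ((map_ne_zero τ).mpr hu0)
  exact mul_left_cancel₀ hne h3

end Abstract

end Fermat.Agent.S24.H324
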