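import Fermat.Agent.S24.H324.FundIneq
import Mathlib.RingTheory.Norm.Transitivity
import Mathlib.FieldTheory.IsAlgClosed.AlgebraicClosure

/-!
# S24 / ALG (helper324) — the norm formula from `LocalData`

For `L : LocalData K F C X t` with `[F : K(t)] = #X` and `f ≠ 0`:

* `sum_order_eq` : `∑ₓ ord_z (σₓ f) = m * ∑_{v | t} v.ord f`;
* `sum_ord_eq_of_norm` : `∑_{v | t} v.ord f = ν` whenever `v.ord (N f) = ν * v.ord t` at the places
  over `t` (`N f` = norm of `f` to `K(t)`).
-/

set_option autoImplicit false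
set_option linter.style.haveILetI false

noncomputable section

open AlgebraicCurve HahnSeries IntermediateField
open Fermat.Agent.S24.H117

namespace Fermat.Agent.S24.H324

section Emb

variable {F₀ F E : Type*} [Field F₀] [Field F] [Algebra F₀ F] [FiniteDimensional F₀ F]
  [Algebra.IsSeparable F₀ F] [Field E]
variable {X : Type*}

/-- The image of the norm is the product of the conjugates (cf. helper144 `loc_norm_eq_prod`). -/
theorem norm_eq_prod_emb [Fintype X] (σ : X → (F →+* E)) (hinj : Function.Injective σ)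
    (hagree : ∀ (x y : X) (c : F₀), σ x (algebraMap F₀ F c) = σ y (algebraMap F₀ F c))
    (hcard : Module.finrank F₀ F = Nat.card X) (f : F) (x₀ : X) :
    σ x₀ (algebraMap F₀ F (Algebra.norm F₀ f)) = ∏ x, σ x f := by
  classical
  let φ : F₀ →+* AlgebraicClosure E :=
    (algebraMap E (AlgebraicClosure E)).comp ((σ x₀).comp (algebraMap F₀ F))
  letI : Algebra F₀ (AlgebraicClosure E) := φ.toAlgebra
  have hφ : ∀ c : F₀, algebraMap F₀ (AlgebraicClosure E) c
      = algebraMap E (AlgebraicClosure E) (σ x₀ (algebraMap F₀ F c)) := fun c => rfl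
  let ψ : X → (F →ₐ[F₀] AlgebraicClosure E) := fun x =>
    { ((algebraMap E (AlgebraicClosure E)).comp (σ x)) with
      commutes' := fun c => by
        change algebraMap E (AlgebraicClosure E) (σ x (algebraMap F₀ F c))
          = algebraMap F₀ (AlgebraicClosure E) c
        rw [hφ, hagree x x₀] }
  have hψ_apply : ∀ x f, ψ x f = algebraMap E (AlgebraicClosure E) (σ x f) := fun _ _ => rfl
  have hψinj : Function.Injective ψ := by
    intro x y hxy
    apply hinj
    ext f
    have h := congrArg (fun τ : F →ₐ[F₀] AlgebraicClosure E => τ f) hxy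
    exact (algebraMap E (AlgebraicClosure E)).injective h
  have hcard' : Nat.card (F →ₐ[F₀] AlgebraicClosure E) = Nat.card X := by
    rw [← hcard, ← Fintype.card_eq_nat_card]
    exact AlgHom.card F₀ F (AlgebraicClosure E)
  have hbij : Function.Bijective ψ :=
    (Nat.bijective_iff_injective_and_card ψ).mpr ⟨hψinj, hcard'.symm⟩
  apply (algebraMap E (AlgebraicClosure E)).injective
  rw [← hφ, Algebra.norm_eq_prod_embeddings F₀ (AlgebraicClosure E) f, map_prod]
  exact (Fintype.prod_bijective ψ hbij _ _ (fun x => hψ_apply x f)).symm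

end Emb

section Laurent

variable {C : Type*} [Field C]

theorem order_prod' {ι : Type*} (s : Finset ι) (A : ι → LaurentSeries C)
    (h : ∀ i ∈ s, A i ≠ 0) : (∏ i ∈ s, A i).order = ∑ i ∈ s, (A i).order := by
  classical
  induction s using Finset.induction_on with
  | empty => simp
  | insert a s ha ih =>
    rw [Finset.prod_insert ha, Finset.sum_insert ha,
      order_mul (h a (Finset.mem_insert_self a s))
        (Finset.prod_ne_zero_iff.mpr fun i hi => h i (Finset.mem_insert_of_mem hi)),
      ih fun i hi => h i (Finset.mem_insert_of_mem hi)]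

end Laurent

variable {K F : Type*} [Field K] [Field F] [Algebra K F]
variable {C : Type*} [Field C] {X : Type*}
variable {t : F} (L : LocalData K F C X t)
variable [IsAlgClosed K] [CharZero C] [CharZero K] [FiniteDimensional K⟮t⟯ F]

/-- Exactly `v.ord t` of the embeddings induce a place `v` over `t = 0`. -/
theorem card_fiber_eq [Fintype X] [DecidableEq (Place K F)]
    (hrank : Module.finrank ↥K⟮t⟯ F = Nat.card X)
    (s : Finset (Place K F)) (hs : ∀ v, v ∈ s ↔ 0 < v.ord t) (v : Place K F) (hv : v ∈ s) :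
    ((Finset.univ.filter (fun x => placeOf L x = v)).card : ℤ) = v.ord t := by
  classical
  have hle : ∀ w ∈ s, ((Finset.univ.filter (fun x => placeOf L x = w)).card : ℤ) ≤ w.ord t :=
    fun w hw => card_fiber_le L w ((hs w).mp hw).le
  obtain ⟨-, -, h3⟩ := localThm L K⟮t⟯ le_rfl hrank s hs (card_le_sum_ord L s hs)
  have hmaps : Set.MapsTo (placeOf L) (↑(Finset.univ : Finset X)) (↑s : Set (Place K F)) := by
    intro x _
    exact Finset.mem_coe.mpr ((hs _).mpr (ord_t_pos L x))
  have hcard := Finset.card_eq_sum_card_fiberwise hmaps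
  have hsum : ∑ w ∈ s, ((Finset.univ.filter (fun x => placeOf L x = w)).card : ℤ)
      = ∑ w ∈ s, w.ord t := by
    rw [h3, Nat.card_eq_fintype_card, ← Finset.card_univ, hcard, Nat.cast_sum]
  exact (Finset.sum_eq_sum_iff_of_le hle).mp hsum v hv

/-- `∑ₓ ord_z (σₓ f) = m * ∑_{v | t} v.ord f`. -/
theorem sum_order_eq [Fintype X]
    (hrank : Module.finrank ↥K⟮t⟯ F = Nat.card X)
    (s : Finset (Place K F)) (hs : ∀ v, v ∈ s ↔ 0 < v.ord t) (f : F) :
    ∑ x, (L.σ x f).order = (L.m : ℤ) * ∑ v ∈ s, v.ord f := by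
  classical
  have hmaps : ∀ x ∈ (Finset.univ : Finset X), placeOf L x ∈ s := fun x _ =>
    (hs _).mpr (ord_t_pos L x)
  rw [← Finset.sum_fiberwise_of_maps_to hmaps, Finset.mul_sum]
  refine Finset.sum_congr rfl fun v hv => ?_
  have hvpos : 0 < v.ord t := (hs v).mp hv
  have hcard := card_fiber_eq L hrank s hs v hv
  -- multiply by `v.ord t` and cancel
  apply mul_left_cancel₀ hvpos.ne'
  rw [Finset.mul_sum]
  have hterm : ∀ x ∈ Finset.univ.filter (fun x => placeOf L x = v),
      v.ord t * (L.σ x f).order = (L.m : ℤ) * v.ord f := by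
    intro x hx
    have hxv : placeOf L x = v := (Finset.mem_filter.mp hx).2
    have h1 := mult_mul_ord_t L x
    rw [hxv] at h1
    rw [order_eq L x f, hxv, ← h1]
    ring
  rw [Finset.sum_congr rfl hterm, Finset.sum_const, nsmul_eq_mul, hcard]

include L in
/-- **Norm formula.** -/
theorem sum_ord_eq_of_norm [Finite X]
    (hrank : Module.finrank ↥K⟮t⟯ F = Nat.card X)
    (s : Finset (Place K F)) (hs : ∀ v, v ∈ s ↔ 0 < v.ord t) (f : F) (hf : f ≠ 0) (ν : ℤ)
    (hν : ∀ v : Place K F, 0 < v.ord t →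
      v.ord (algebraMap ↥K⟮t⟯ F (Algebra.norm ↥K⟮t⟯ f)) = ν * v.ord t) :
    ∑ v ∈ s, v.ord f = ν := by
  classical
  haveI : Fintype X := Fintype.ofFinite X
  have hXne : Nonempty X := by
    have h0 : 0 < Nat.card X := hrank ▸ Module.finrank_pos
    exact (Nat.card_pos_iff.mp h0).1
  obtain ⟨x₀⟩ := hXne
  haveI : CharZero ↥K⟮t⟯ := charZero_of_injective_algebraMap (algebraMap K ↥K⟮t⟯).injective
  have hnorm := norm_eq_prod_emb (F₀ := ↥K⟮t⟯) L.σ L.σ_inj
    (fun x y c => σ_eq_of_mem_adjoin L x y c.2) hrank f x₀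
  have hm : (L.m : ℤ) ≠ 0 := by exact_mod_cast L.m_pos.ne'
  have h1 : (∏ x, L.σ x f).order = ∑ x, (L.σ x f).order :=
    order_prod' _ _ fun x _ => (map_ne_zero (L.σ x)).mpr hf
  have h2 : (L.σ x₀ (algebraMap ↥K⟮t⟯ F (Algebra.norm ↥K⟮t⟯ f))).order = ν * L.m := by
    rw [order_eq L x₀, hν _ (ord_t_pos L x₀), ← mult_mul_ord_t L x₀]
    ring
  have h3 := sum_order_eq L hrank s hs f
  rw [← h1, ← hnorm, h2] at h3
  apply mul_left_cancel₀ hm
  rw [← h3]; ring

end Fermat.Agent.S24.H324
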